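import Fermat.Agent.GreavesForms.Tail

/-!
# The lattice of one class

The points `v` of `[-B, B]²` with `m ∣ x - r y` lie on `O (N B / m)` translates of the line of a
shortest vector `e`, `‖e‖ = N ≤ √m`, each cut into `O (B / (N A) + 1)` segments of length `A`.
-/

set_option autoImplicit false

noncomputable section

open Finset

namespace FA.GreavesSix

open FA.ThinSets (intBox)
open FA.GreavesForms (mem_box pair_ext)
open scoped Classical

/-- A nearest multiple. -/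
theorem exists_near_multiple {a : ℤ} (ha : a ≠ 0) (d : ℤ) : ∃ n : ℤ, 2 * |d - n * a| ≤ |a| := by
  have h1 := Int.emod_add_mul_ediv d a
  have h2 := Int.emod_nonneg d ha
  have h3 := Int.emod_lt_abs d ha
  rcases le_or_gt (2 * (d % a)) |a| with h | h
  · refine ⟨d / a, ?_⟩
    rw [show d - d / a * a = d % a by linarith, abs_of_nonneg h2]
    exact h
  · refine ⟨d / a + a.sign, ?_⟩
    rw [show d - (d / a + a.sign) * a = d % a - |a| by
      rw [add_mul, Int.sign_mul_self_eq_abs]; linarith, abs_of_nonpos (by linarith)]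
    linarith

/-- A short vector of the lattice whose multiples fill its line. -/
theorem exists_short {m : ℕ} (hm : 0 < m) (r : ℤ) :
    ∃ (a b : ℤ) (N : ℕ), 0 < N ∧ N * N ≤ m ∧ |a| ≤ N ∧ |b| ≤ N ∧
      ((N : ℤ) = |a| ∨ (N : ℤ) = |b|) ∧ (m : ℤ) ∣ a - r * b ∧
      ∀ x y : ℤ, (m : ℤ) ∣ x - r * y → a * y = b * x → ∃ n : ℤ, x = n * a ∧ y = n * b := by
  have : NeZero m := ⟨hm.ne'⟩
  obtain ⟨s, hs⟩ : ∃ s, s = Nat.sqrt m := ⟨_, rfl⟩
  obtain ⟨P, hP⟩ : ∃ P : ℕ → Prop, P = fun n => 0 < n ∧ ∃ a b : ℤ,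
    max a.natAbs b.natAbs = n ∧ (m : ℤ) ∣ a - r * b := ⟨_, rfl⟩
  have hex : ∃ n, n ≤ s ∧ P n := by
    obtain ⟨u, hu, w, hw, hne, he⟩ := exists_ne_map_eq_of_card_lt_of_maps_to
      (s := range (s + 1) ×ˢ range (s + 1)) (t := (univ : Finset (ZMod m)))
      (by
        rw [card_univ, ZMod.card, card_product, card_range]
        exact hs ▸ Nat.lt_succ_sqrt m)
      (f := fun u : ℕ × ℕ => ((u.1 : ℤ) - r * u.2 : ZMod m)) (fun _ _ => by simp)
    simp only [mem_product, mem_range] at hu hw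
    refine ⟨max ((u.1 : ℤ) - w.1).natAbs ((u.2 : ℤ) - w.2).natAbs, by omega, ?_⟩
    rw [hP]
    refine ⟨?_, _, _, rfl, ?_⟩
    · have : u.1 ≠ w.1 ∨ u.2 ≠ w.2 := by
        by_contra hc
        push Not at hc
        exact hne (Prod.ext hc.1 hc.2)
      omega
    · rw [← ZMod.intCast_zmod_eq_zero_iff_dvd]
      push_cast at he ⊢
      linear_combination he
  have hex' : ∃ n, P n := ⟨_, hex.choose_spec.2⟩
  have hN := Nat.find_spec hex'
  have hNs : Nat.find hex' ≤ s := (Nat.find_min' hex' hex.choose_spec.2).trans hex.choose_spec.1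
  set N := Nat.find hex' with hNdef
  have hmin : ∀ a b : ℤ, (m : ℤ) ∣ a - r * b → 2 * |a| ≤ N → 2 * |b| ≤ N → a = 0 ∧ b = 0 := by
    intro a b hd ha hb
    by_contra hne
    refine Nat.find_min hex' (m := max a.natAbs b.natAbs) ?_ ?_
    · rw [← hNdef]
      rw [Int.abs_eq_natAbs] at ha hb
      have : 0 < N := by rw [hP] at hN; exact hN.1
      omega
    · rw [hP]
      refine ⟨?_, a, b, rfl, hd⟩
      omega
  rw [hP] at hN
  obtain ⟨hN0, a, b, hab, hd⟩ := hN
  have ha : |a| ≤ N := by rw [Int.abs_eq_natAbs]; omega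
  have hb : |b| ≤ N := by rw [Int.abs_eq_natAbs]; omega
  have hcase : (N : ℤ) = |a| ∨ (N : ℤ) = |b| := by
    rw [Int.abs_eq_natAbs, Int.abs_eq_natAbs]; omega
  refine ⟨a, b, N, hN0, (Nat.mul_le_mul hNs hNs).trans (hs ▸ Nat.sqrt_le m), ha, hb, hcase, hd,
    fun x y hxy hdet => ?_⟩
  have key : ∀ n : ℤ, 2 * |x - n * a| ≤ N → 2 * |y - n * b| ≤ N → x = n * a ∧ y = n * b := by
    intro n h1 h2
    have hd' : (m : ℤ) ∣ (x - n * a) - r * (y - n * b) := by
      rw [show (x - n * a) - r * (y - n * b) = (x - r * y) - n * (a - r * b) by ring]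
      exact hxy.sub (hd.mul_left n)
    obtain ⟨h3, h4⟩ := hmin _ _ hd' h1 h2
    exact ⟨sub_eq_zero.1 h3, sub_eq_zero.1 h4⟩
  rcases hcase with h | h
  · have ha0 : a ≠ 0 := fun h0 => by rw [h0, abs_zero] at h; omega
    obtain ⟨n, hn⟩ := exists_near_multiple ha0 x
    have h1 : 2 * |x - n * a| ≤ N := h ▸ hn
    refine ⟨n, key n h1 ?_⟩
    have e : |a| * |y - n * b| = |b| * |x - n * a| := by
      rw [← abs_mul, ← abs_mul]; congr 1; linear_combination hdet
    refine le_of_mul_le_mul_left ?_ (abs_pos.2 ha0)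
    nlinarith [mul_le_mul_of_nonneg_right hb (abs_nonneg (x - n * a))]
  · have hb0 : b ≠ 0 := fun h0 => by rw [h0, abs_zero] at h; omega
    obtain ⟨n, hn⟩ := exists_near_multiple hb0 y
    have h1 : 2 * |y - n * b| ≤ N := h ▸ hn
    refine ⟨n, key n ?_ h1⟩
    have e : |b| * |x - n * a| = |a| * |y - n * b| := by
      rw [← abs_mul, ← abs_mul]; congr 1; linear_combination -hdet
    refine le_of_mul_le_mul_left ?_ (abs_pos.2 hb0)
    nlinarith [mul_le_mul_of_nonneg_right ha (abs_nonneg (y - n * b))]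

/-- An interval of multiples in segments of length `A`. -/
theorem segments_card_le {A M : ℕ} (hA : 0 < A) (S : Finset ℤ) (hS : ∀ n ∈ S, |n| ≤ (M : ℤ))
    {Kb : ℝ} (h : ∀ n₀ : ℤ, ((Ioc 0 A).filter fun t : ℕ => n₀ + t ∈ S).card ≤ Kb) :
    (S.card : ℝ) ≤ ((2 * M / A + 1 : ℕ) : ℝ) * Kb := by
  have hsub : S ⊆ (range (2 * M / A + 1)).biUnion fun i =>
      ((Ioc 0 A).filter fun t : ℕ => (-(M : ℤ) - 1 + (A * i : ℕ)) + t ∈ S).image
        fun t : ℕ => (-(M : ℤ) - 1 + (A * i : ℕ)) + t := by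
    intro n hn
    obtain ⟨h1, h2⟩ := abs_le.1 (hS n hn)
    obtain ⟨k, hk⟩ : ∃ k : ℕ, (k : ℤ) = n + M := ⟨(n + M).toNat, Int.toNat_of_nonneg (by omega)⟩
    have hdm := Nat.div_add_mod k A
    have hlt := Nat.mod_lt k hA
    have e : (-(M : ℤ) - 1 + (A * (k / A) : ℕ)) + ((k % A + 1 : ℕ) : ℤ) = n := by omega
    refine mem_biUnion.2 ⟨k / A, mem_range.2 (Nat.lt_succ_of_le (Nat.div_le_div_right
      (by omega))), mem_image.2 ⟨k % A + 1, mem_filter.2 ⟨mem_Ioc.2 ⟨by omega, by omega⟩, ?_⟩, e⟩⟩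
    rw [e]
    exact hn
  refine (Nat.cast_le.2 ((card_le_card hsub).trans card_biUnion_le)).trans ?_
  push_cast
  refine (sum_le_sum fun i _ => le_trans (Nat.cast_le.2 card_image_le) (h _)).trans_eq ?_
  rw [sum_const, card_range, nsmul_eq_mul]
  push_cast
  ring

/-- **The points of one class.** -/
theorem class_card_le {m A B : ℕ} (hm : 0 < m) (hA : 0 < A) (h1 : A ^ 2 * m ≤ B ^ 2)
    (h2 : B ^ 2 ≤ 256 * (m * A ^ 2)) (r : ℤ) (Ω : ℤ → ℤ → Prop) {Kb : ℝ} (hK : 0 ≤ Kb)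
    (hline : ∀ a x b y j : ℤ, a * y - b * x = j * m → j ≠ 0 → |j| ≤ 32 * A →
      ((Ioc 0 A).filter fun t : ℕ => Ω (a * t + x) (b * t + y)).card ≤ Kb) :
    (((intBox 2 B).filter fun v => IsCoprime (v 0) (v 1) ∧ (m : ℤ) ∣ v 0 - r * v 1 ∧
      Ω (v 0) (v 1)).card : ℝ) ≤ 2 + 5120 * A * Kb := by
  obtain ⟨a, b, N, hN0, hNm, ha, hb, hN, hd, hline'⟩ := exists_short hm r
  set S := (intBox 2 B).filter fun v => IsCoprime (v 0) (v 1) ∧ (m : ℤ) ∣ v 0 - r * v 1 ∧
    Ω (v 0) (v 1) with hSdef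
  -- the index of a point
  obtain ⟨J, hJ⟩ : ∃ J, J = 2 * N * B / m := ⟨_, rfl⟩
  obtain ⟨M, hM⟩ : ∃ M, M = 2 * B / N := ⟨_, rfl⟩
  set idx : (Fin 2 → ℤ) → ℤ := fun v => (a * v 1 - b * v 0) / m with hidx
  have hab : ∀ v ∈ S, a * v 1 - b * v 0 = idx v * m ∧ |idx v| ≤ J := by
    intro v hv
    obtain ⟨hv1, -, hvd, -⟩ := mem_filter.1 hv
    have hdv : (m : ℤ) ∣ a * v 1 - b * v 0 := by
      rw [show a * v 1 - b * v 0 = (a - r * b) * v 1 - b * (v 0 - r * v 1) by ring]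
      exact (hd.mul_right _).sub (hvd.mul_left _)
    have e := (Int.ediv_mul_cancel hdv).symm
    refine ⟨e, ?_⟩
    obtain ⟨hx, hy⟩ := mem_box.1 hv1
    have h3 : |idx v| * m ≤ 2 * N * B := by
      rw [← Nat.abs_cast (R := ℤ) m, ← abs_mul, ← e]
      refine (abs_sub _ _).trans ?_
      rw [abs_mul, abs_mul]
      nlinarith [mul_le_mul ha hy (abs_nonneg _) (Int.natCast_nonneg N),
        mul_le_mul hb hx (abs_nonneg _) (Int.natCast_nonneg N)]
    rw [Int.abs_eq_natAbs] at h3 ⊢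
    rw [hJ, Nat.cast_le, Nat.le_div_iff_mul_le hm]
    exact_mod_cast h3
  -- the line through the origin
  have hzero : (S.filter fun v => idx v = 0).card ≤ 2 := by
    refine (card_le_card (t := {![a, b], ![-a, -b]}) fun v hv => ?_).trans card_le_two
    obtain ⟨hvS, hv0⟩ := mem_filter.1 hv
    have e := (hab v hvS).1
    rw [hv0, zero_mul, sub_eq_zero] at e
    obtain ⟨-, hc, hvd, -⟩ := mem_filter.1 hvS
    obtain ⟨n, hx, hy⟩ := hline' _ _ hvd e
    rw [mem_insert, mem_singleton]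
    rcases Int.isUnit_iff.1 (hc.isUnit_of_dvd' (x := n) ⟨a, hx⟩ ⟨b, hy⟩) with rfl | rfl
    · exact Or.inl (pair_ext (by simpa using hx) (by simpa using hy))
    · exact Or.inr (pair_ext (by simpa using hx) (by simpa using hy))
  -- one translate
  have hfibre : ∀ j : ℤ, j ≠ 0 → |j| ≤ (J : ℤ) →
      ((S.filter fun v => idx v = j).card : ℝ) ≤ ((2 * M / A + 1 : ℕ) : ℝ) * Kb := by
    intro j hj hjJ
    have hj32 : |j| ≤ 32 * (A : ℤ) := by
      refine hjJ.trans ?_
      have h3 : (J * m) ^ 2 ≤ (32 * m * A) ^ 2 := by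
        calc (J * m) ^ 2 ≤ (2 * N * B) ^ 2 := by
              rw [hJ]
              exact Nat.pow_le_pow_left (Nat.div_mul_le_self _ _) 2
          _ = 4 * (N * N) * B ^ 2 := by ring
          _ ≤ 4 * m * (256 * (m * A ^ 2)) := Nat.mul_le_mul (Nat.mul_le_mul_left 4 hNm) h2
          _ = _ := by ring
      have h4 := (Nat.pow_le_pow_iff_left two_ne_zero).1 h3
      have h5 : J ≤ 32 * A := Nat.le_of_mul_le_mul_right (by linarith) hm
      exact_mod_cast h5
    rcases (S.filter fun v => idx v = j).eq_empty_or_nonempty with h0 | ⟨w, hw⟩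
    · rw [h0, card_empty, Nat.cast_zero]
      positivity
    obtain ⟨hwS, hwj⟩ := mem_filter.1 hw
    obtain ⟨hw1, -, hwd, -⟩ := mem_filter.1 hwS
    have hew := (hab w hwS).1
    rw [hwj] at hew
    set T := (Finset.Icc (-(M : ℤ)) M).filter fun n =>
      Ω (w 0 + n * a) (w 1 + n * b)
    have hsub : (S.filter fun v => idx v = j) ⊆
        T.image fun n => ![w 0 + n * a, w 1 + n * b] := by
      intro v hv
      obtain ⟨hvS, hvj⟩ := mem_filter.1 hv
      obtain ⟨hv1, -, hvd, hvΩ⟩ := mem_filter.1 hvS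
      have hev := (hab v hvS).1
      rw [hvj] at hev
      obtain ⟨n, hx, hy⟩ := hline' (v 0 - w 0) (v 1 - w 1)
        (by rw [show v 0 - w 0 - r * (v 1 - w 1) = (v 0 - r * v 1) - (w 0 - r * w 1) by ring]
            exact hvd.sub hwd)
        (by linear_combination hev - hew)
      obtain ⟨hvx, hvy⟩ := mem_box.1 hv1
      obtain ⟨hwx, hwy⟩ := mem_box.1 hw1
      have hn : |n| * N ≤ 2 * B := by
        rcases hN with h | h <;> rw [h, ← abs_mul]
        · rw [← hx]; linarith [abs_sub (v 0) (w 0)]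
        · rw [← hy]; linarith [abs_sub (v 1) (w 1)]
      rw [mem_image]
      refine ⟨n, mem_filter.2 ⟨mem_Icc.2 (abs_le.1 ?_), ?_⟩, ?_⟩
      · rw [hM, Int.abs_eq_natAbs, Nat.cast_le, Nat.le_div_iff_mul_le hN0]
        rw [Int.abs_eq_natAbs] at hn
        exact_mod_cast hn
      · rwa [← hx, ← hy, add_sub_cancel, add_sub_cancel]
      · exact pair_ext (by simp [← hx]) (by simp [← hy])
    refine (Nat.cast_le.2 ((card_le_card hsub).trans card_image_le)).trans
      (segments_card_le hA T (fun n hn => abs_le.2 (mem_Icc.1 (mem_filter.1 hn).1)) fun n₀ => ?_)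
    refine le_trans (Nat.cast_le.2 (card_le_card fun t ht => ?_))
      (hline a (w 0 + n₀ * a) b (w 1 + n₀ * b) j (by linear_combination hew) hj hj32)
    obtain ⟨ht1, ht2⟩ := mem_filter.1 ht
    refine mem_filter.2 ⟨ht1, ?_⟩
    have h3 := (mem_filter.1 ht2).2
    convert h3 using 1 <;> ring
  -- all of them
  set Js := (Finset.Icc (-(J : ℤ)) J).erase 0
  have hJs : Js.card = 2 * J := by
    rw [card_erase_of_mem (mem_Icc.2 ⟨by omega, by omega⟩), Int.card_Icc]
    omega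
  have hsum : S.card = (S.filter fun v => idx v = 0).card +
      ∑ j ∈ Js, (S.filter fun v => idx v = j).card := by
    rw [add_sum_erase _ (fun j => (S.filter fun v => idx v = j).card)
      (mem_Icc.2 ⟨by omega, by omega⟩)]
    exact card_eq_sum_card_fiberwise fun v hv => mem_Icc.2 (abs_le.1 (hab v hv).2)
  rw [hsum]
  push_cast
  refine add_le_add (by exact_mod_cast hzero) ?_
  refine (sum_le_sum fun j hj => hfibre j (ne_of_mem_erase hj)
    (abs_le.2 (mem_Icc.1 (mem_of_mem_erase hj)))).trans ?_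
  rw [sum_const, hJs, nsmul_eq_mul, ← mul_assoc]
  refine mul_le_mul_of_nonneg_right ?_ hK
  -- the number of segments
  have hm' : (0 : ℝ) < m := Nat.cast_pos.2 hm
  have hA' : (0 : ℝ) < A := Nat.cast_pos.2 hA
  have hN' : (0 : ℝ) < N := Nat.cast_pos.2 hN0
  have e1 : ((2 * J : ℕ) : ℝ) ≤ 4 * N * B / m := by
    push_cast
    rw [hJ, le_div_iff₀ hm']
    have : ((2 * N * B / m : ℕ) : ℝ) * m ≤ ((2 * N * B : ℕ) : ℝ) :=
      by exact_mod_cast Nat.div_mul_le_self (2 * N * B) m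
    push_cast at this
    linarith
  have e2 : ((2 * M / A + 1 : ℕ) : ℝ) ≤ 4 * B / (N * A) + 1 := by
    rw [Nat.cast_add_one]
    refine add_le_add ?_ le_rfl
    rw [le_div_iff₀ (by positivity)]
    have h3 : 2 * M / A * (N * A) ≤ 4 * B := by
      calc 2 * M / A * (N * A) = 2 * M / A * A * N := by ring
        _ ≤ 2 * M * N := Nat.mul_le_mul_right _ (Nat.div_mul_le_self _ _)
        _ = 2 * (M * N) := by ring
        _ ≤ 2 * (2 * B) := Nat.mul_le_mul_left _ (hM ▸ Nat.div_mul_le_self _ _)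
        _ = _ := by ring
    exact_mod_cast h3
  have hNA : (N : ℝ) * A ≤ B := by
    have h3 : (N * A) ^ 2 ≤ B ^ 2 := by
      refine le_trans ?_ h1
      rw [mul_pow, sq, mul_comm]
      exact Nat.mul_le_mul_left _ hNm
    exact_mod_cast (Nat.pow_le_pow_iff_left two_ne_zero).1 h3
  have h2' : (B : ℝ) ^ 2 ≤ 256 * (m * A ^ 2) := by exact_mod_cast h2
  refine (mul_le_mul e1 e2 (Nat.cast_nonneg _) (by positivity)).trans ?_
  have e3 : 4 * (N : ℝ) * B / m * (4 * B / (N * A) + 1) ≤ 20 * B ^ 2 / (m * A) := by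
    rw [mul_add, mul_one]
    have h6 : 4 * (N : ℝ) * B / m ≤ 4 * B ^ 2 / (m * A) := by
      rw [div_le_div_iff₀ hm' (by positivity)]
      nlinarith [mul_le_mul_of_nonneg_left hNA (by positivity : (0 : ℝ) ≤ 4 * B * m)]
    have h7 : 4 * (N : ℝ) * B / m * (4 * B / (N * A)) = 16 * B ^ 2 / (m * A) := by
      field_simp
      ring
    rw [h7]
    refine (add_le_add le_rfl h6).trans_eq ?_
    ring
  refine e3.trans ?_
  rw [div_le_iff₀ (by positivity)]
  nlinarith

end FA.GreavesSix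

end
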