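import Fermat.Agent.Root.SummaryHyperellipticWeil
import Fermat.Agent.ThinSets.Sieve
import Fermat.Agent.Thue.Equation
import Fermat.Agent.SquarefreeValues.Local

/-!
# Square values of a binary form on a segment

On a line off the origin a separable form of degree `k ≥ 2` is a separable polynomial, so by
Weil at most three quarters of the classes modulo a large prime give `c` times a square, and by
the large sieve few points of a segment do.
-/

set_option autoImplicit false

noncomputable section

open Polynomial Finset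

namespace FA.GreavesSix

section Field

variable {K : Type*} [Field K]

/-- The form on the line `(a t + x, b t + y)`. -/
def linePoly (g : K[X]) (k : ℕ) (a x b y : K) : K[X] :=
  ∑ i ∈ range (k + 1), C (g.coeff i) * (C a * X + C x) ^ i * (C b * X + C y) ^ (k - i)

theorem linePoly_map {L : Type*} [Field L] (φ : K →+* L) (g : K[X]) (k : ℕ) (a x b y : K) :
    (linePoly g k a x b y).map φ = linePoly (g.map φ) k (φ a) (φ x) (φ b) (φ y) := by
  simp [linePoly, Polynomial.map_sum]

theorem linePoly_natDegree_le (g : K[X]) (k : ℕ) (a x b y : K) :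
    (linePoly g k a x b y).natDegree ≤ k := by
  refine natDegree_sum_le_of_forall_le _ _ fun i hi => ?_
  have h : ∀ (c d : K), (C c * X + C d).natDegree ≤ 1 := fun c d => natDegree_linear_le
  calc (C (g.coeff i) * (C a * X + C x) ^ i * (C b * X + C y) ^ (k - i)).natDegree
      ≤ (C (g.coeff i)).natDegree + i * 1 + (k - i) * 1 := by
        refine natDegree_mul_le.trans
          (add_le_add (natDegree_mul_le.trans (add_le_add le_rfl ?_)) ?_)
        · exact natDegree_pow_le.trans (Nat.mul_le_mul_left _ (h a x))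
        · exact natDegree_pow_le.trans (Nat.mul_le_mul_left _ (h b y))
    _ = k := by
        have := mem_range.1 hi
        rw [natDegree_C]
        omega

/-- The derivative at a point of slope `r`. -/
theorem derivative_linePoly_eval (g : K[X]) {k : ℕ} (hk : g.natDegree = k) {a x b y t r : K}
    (hr : a * t + x = r * (b * t + y)) :
    (derivative (linePoly g k a x b y)).eval t = (b * t + y) ^ (k - 1) *
      (a * g.derivative.eval r + b * ((k : K) * g.eval r - r * g.derivative.eval r)) := by
  set Y := b * t + y with hY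
  have e0 : g.eval r = ∑ i ∈ range (k + 1), g.coeff i * r ^ i := by
    rw [eval_eq_sum_range, hk]
  have e1 : g.derivative.eval r = ∑ i ∈ range (k + 1), g.coeff i * ((i : K) * r ^ (i - 1)) := by
    rw [derivative_eval, sum_over_range' g (by simp) (k + 1) (by omega)]
    exact sum_congr rfl fun i _ => by ring
  rw [e0, e1, mul_sum, mul_sum, mul_sum, ← sum_sub_distrib, mul_sum, ← sum_add_distrib, mul_sum,
    linePoly, derivative_sum, eval_finsetSum]
  refine sum_congr rfl fun i hi => ?_
  have hi' : i ≤ k := Nat.lt_succ_iff.1 (mem_range.1 hi)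
  simp only [derivative_mul, derivative_pow, derivative_C, derivative_X, derivative_add,
    eval_add, eval_mul, eval_pow, eval_C, eval_X, mul_one, zero_mul, add_zero, zero_add]
  rw [hr, ← hY]
  have h1 : (i : K) * (r * Y) ^ (i - 1) * Y ^ (k - i) = (i : K) * r ^ (i - 1) * Y ^ (k - 1) := by
    rcases Nat.eq_zero_or_pos i with rfl | h
    · simp
    rw [mul_pow, show k - 1 = (i - 1) + (k - i) by omega, pow_add]
    ring
  have h2 : ((k - i : ℕ) : K) * (r * Y) ^ i * Y ^ (k - i - 1) =
      ((k - i : ℕ) : K) * r ^ i * Y ^ (k - 1) := by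
    rcases Nat.eq_zero_or_pos (k - i) with h | h
    · simp [h]
    rw [mul_pow, show k - 1 = i + (k - i - 1) by omega, pow_add]
    ring
  have h3 : (i : K) * (r * r ^ (i - 1)) = (i : K) * r ^ i := by
    rcases Nat.eq_zero_or_pos i with rfl | h
    · simp
    rw [mul_pow_sub_one h.ne']
  rw [Nat.cast_sub hi'] at h2
  push_cast [Nat.cast_sub hi']
  linear_combination g.coeff i * a * h1 + g.coeff i * b * h2 +
    g.coeff i * b * Y ^ (k - 1) * h3

theorem linePoly_eval (g : K[X]) {k : ℕ} (hk : g.natDegree = k) {a x b y t r : K}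
    (hr : a * t + x = r * (b * t + y)) :
    (linePoly g k a x b y).eval t = (b * t + y) ^ k * g.eval r := by
  rw [eval_eq_sum_range (p := g), hk, mul_sum, linePoly, eval_finsetSum]
  refine sum_congr rfl fun i hi => ?_
  simp only [eval_mul, eval_pow, eval_add, eval_C, eval_X]
  rw [hr, mul_pow, show (b * t + y) ^ k = (b * t + y) ^ i * (b * t + y) ^ (k - i) by
    rw [← pow_add, Nat.add_sub_cancel' (Nat.lt_succ_iff.1 (mem_range.1 hi))]]
  ring

theorem linePoly_separable_of_closed [IsAlgClosed K] (g : K[X]) {k : ℕ} (hk : g.natDegree = k)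
    (h2 : 2 ≤ k) (hsep : g.Separable) {a x b y : K} (hdet : a * y - b * x ≠ 0) :
    (linePoly g k a x b y).Separable ∧ 1 ≤ (linePoly g k a x b y).natDegree := by
  classical
  set h := linePoly g k a x b y
  have hg0 : g ≠ 0 := fun h0 => by rw [h0, natDegree_zero] at hk; omega
  -- a line off the origin is no level line
  have hd : derivative h ≠ 0 := fun h0 => by
    have hid : (C a - C b * X) * derivative g + C ((k : K) * b) * g = 0 := by
      refine eq_zero_of_infinite_isRoot _ (Set.Infinite.mono (s := {r : K | a - b * r ≠ 0})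
        (fun r hr => ?_) ?_)
      · obtain ⟨w, hw⟩ : ∃ w, w = (r * y - x) / (a - b * r) := ⟨_, rfl⟩
        have hw' : w * (a - b * r) = r * y - x := by rw [hw]; exact div_mul_cancel₀ _ hr
        have hr' : a * w + x = r * (b * w + y) := by linear_combination hw'
        have hY : b * w + y ≠ 0 := fun h' => hdet (by
          linear_combination (a - b * r) * h' - b * hw')
        have e := derivative_linePoly_eval g hk hr'
        rw [h0, eval_zero] at e
        have e' := (mul_eq_zero.1 e.symm).resolve_left (pow_ne_zero _ hY)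
        show IsRoot _ r
        simp only [IsRoot.def, eval_add, eval_mul, eval_sub, eval_C, eval_X]
        linear_combination e'
      · refine Set.Infinite.mono (s := ({a / b} : Set K)ᶜ) (fun r hr h' => ?_)
          (Set.finite_singleton _).infinite_compl
        rcases eq_or_ne b 0 with hb | hb
        · exact hdet (by rw [hb, zero_mul, sub_zero] at h'; rw [hb, h']; ring)
        · exact hr (by rw [Set.mem_singleton_iff, eq_div_iff hb]; linear_combination -h')
    have hdvd : g ∣ C a - C b * X :=
      (separable_def g).1 hsep |>.dvd_of_dvd_mul_right ⟨-C ((k : K) * b), by linear_combination hid⟩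
    have hne : C a - C b * X ≠ 0 := fun h' => hdet (by
      have e1 := congrArg (fun p => p.coeff 0) h'
      have e2 := congrArg (fun p => p.coeff 1) h'
      simp at e1 e2
      rw [e1, e2]; ring)
    have h3 := natDegree_le_of_dvd hdvd hne
    have h4 : (C a - C b * X).natDegree ≤ 1 := (natDegree_sub_le _ _).trans
      (max_le (by simp) ((natDegree_C_mul_le _ _).trans natDegree_X_le))
    omega
  have hdeg : 1 ≤ h.natDegree := by
    by_contra hc
    exact hd (derivative_of_natDegree_zero (by omega))
  refine ⟨(separable_def h).2 (isCoprime_of_prime_dvd (fun h' => hd h'.2) fun z hz hz1 hz2 => ?_),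
    hdeg⟩
  obtain ⟨t, ht⟩ := IsAlgClosed.exists_root z (degree_ne_of_natDegree_ne
    fun h0 => hz.not_isUnit (isUnit_iff_degree_eq_zero.2 (by
      rw [degree_eq_natDegree hz.ne_zero, h0]; rfl)))
  have ht1 : h.eval t = 0 := eval_eq_zero_of_dvd_of_eval_eq_zero hz1 ht
  have ht2 : (derivative h).eval t = 0 := eval_eq_zero_of_dvd_of_eval_eq_zero hz2 ht
  by_cases hY : b * t + y = 0
  · have hX : a * t + x ≠ 0 := fun hX => hdet (by linear_combination a * hY - b * hX)
    change (linePoly g k a x b y).eval t = 0 at ht1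
    unfold linePoly at ht1
    rw [eval_finsetSum, sum_range_succ, sum_eq_zero (fun i hi => by
      simp only [eval_mul, eval_pow, eval_add, eval_C, eval_X]
      rw [hY, zero_pow (Nat.sub_ne_zero_of_lt (mem_range.1 hi)), mul_zero]), zero_add] at ht1
    simp only [eval_mul, eval_pow, eval_add, eval_C, eval_X, Nat.sub_self, pow_zero, mul_one,
      mul_eq_zero] at ht1
    rcases ht1 with h1 | h1
    · rw [← hk, coeff_natDegree] at h1
      exact hg0 (leadingCoeff_eq_zero.1 h1)
    · exact hX (pow_eq_zero_iff'.1 h1).1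
  · set r := (a * t + x) / (b * t + y) with hrdef
    have hr : a * t + x = r * (b * t + y) := by rw [hrdef, div_mul_cancel₀ _ hY]
    rw [linePoly_eval g hk hr, mul_eq_zero] at ht1
    have hgr := ht1.resolve_left (pow_ne_zero _ hY)
    rw [derivative_linePoly_eval g hk hr, mul_eq_zero] at ht2
    have hgr' := ht2.resolve_left (pow_ne_zero _ hY)
    rw [hgr] at hgr'
    have hab : a - b * r ≠ 0 := fun h' => hdet (by linear_combination (b * t + y) * h' - b * hr)
    have hd' : g.derivative.eval r = 0 :=
      (mul_eq_zero.1 (show (a - b * r) * g.derivative.eval r = 0 by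
        linear_combination hgr')).resolve_left hab
    obtain ⟨u, v, huv⟩ := (separable_def g).1 hsep
    have := congrArg (eval r) huv
    simp [hgr, hd'] at this

theorem linePoly_separable (g : K[X]) {k : ℕ} (hk : g.natDegree = k) (h2 : 2 ≤ k)
    (hsep : g.Separable) {a x b y : K} (hdet : a * y - b * x ≠ 0) :
    (linePoly g k a x b y).Separable ∧ 1 ≤ (linePoly g k a x b y).natDegree := by
  set φ := algebraMap K (AlgebraicClosure K)
  have h := linePoly_separable_of_closed (g.map φ)
    (by rw [natDegree_map_eq_of_injective φ.injective, hk]) h2 hsep.map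
    (a := φ a) (x := φ x) (b := φ b) (y := φ y)
    (by rw [← map_mul, ← map_mul, ← map_sub]; exact (map_ne_zero φ).2 hdet)
  rw [← linePoly_map, separable_map, natDegree_map_eq_of_injective φ.injective] at h
  exact h

end Field

variable {g : ℤ[X]}

/-- A prime at which the form stays separable of full degree. -/
theorem map_separable {u v : ℤ[X]} {D : ℤ} (hbez : u * g + v * derivative g = C D) {q : ℕ}
    [Fact q.Prime] (hD : ¬(q : ℤ) ∣ D) (hlead : ¬(q : ℤ) ∣ g.leadingCoeff) :
    (g.map (Int.castRingHom (ZMod q))).Separable ∧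
      (g.map (Int.castRingHom (ZMod q))).natDegree = g.natDegree := by
  set φ := Int.castRingHom (ZMod q) with hφ
  have hz : ∀ z : ℤ, ¬(q : ℤ) ∣ z → φ z ≠ 0 := fun z hz h => hz
    ((ZMod.intCast_zmod_eq_zero_iff_dvd z q).1 (by simpa [hφ] using h))
  refine ⟨(separable_def' _).2 ⟨C (φ D)⁻¹ * u.map φ, C (φ D)⁻¹ * v.map φ, ?_⟩,
    natDegree_map_of_leadingCoeff_ne_zero φ (hz _ hlead)⟩
  rw [derivative_map, mul_assoc, mul_assoc, ← mul_add, ← Polynomial.map_mul, ← Polynomial.map_mul,
    ← Polynomial.map_add, hbez, map_C, ← C_mul, inv_mul_cancel₀ (hz D hD), C_1]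

/-- **At most three quarters of the classes give a square.** -/
theorem square_classes_card {u v : ℤ[X]} {D : ℤ} (hbez : u * g + v * derivative g = C D)
    (h2 : 2 ≤ g.natDegree) {q : ℕ} [Fact q.Prime] (hq : 16 * g.natDegree ^ 2 < q)
    {c a x b y : ℤ} (hD : ¬(q : ℤ) ∣ D) (hlead : ¬(q : ℤ) ∣ g.leadingCoeff) (hc : ¬(q : ℤ) ∣ c)
    (hdet : ¬(q : ℤ) ∣ a * y - b * x) :
    (((univ : Finset (ZMod q)).filter fun t => IsSquare ((c : ZMod q) *
      (linePoly (g.map (Int.castRingHom (ZMod q))) g.natDegree a x b y).eval t)).card : ℝ) ≤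
      3 / 4 * q := by
  classical
  set F := ZMod q
  obtain ⟨hsep, hdeg⟩ := map_separable hbez hD hlead
  have hdet' : (a : F) * y - b * x ≠ 0 := fun h => hdet
    ((ZMod.intCast_zmod_eq_zero_iff_dvd _ q).1 (by push_cast; exact h))
  obtain ⟨hsep', hdeg'⟩ := linePoly_separable _ hdeg h2 hsep hdet'
  set h := linePoly (g.map (Int.castRingHom F)) g.natDegree (a : F) (x : F) (b : F) (y : F)
  set k := g.natDegree
  have hk : h.natDegree ≤ k := linePoly_natDegree_le _ _ _ _ _ _
  have hq2 : ringChar F ≠ 2 := by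
    rw [ZMod.ringChar_zmod_n]
    nlinarith
  have hc' : (c : F) ≠ 0 := fun h => hc ((ZMod.intCast_zmod_eq_zero_iff_dvd _ q).1 h)
  have hterm : ∀ t : F, (2 : ℝ) * (if IsSquare ((c : F) * h.eval t) then (1 : ℝ) else 0) ≤
      1 + (quadraticChar F (c : F) : ℝ) * (quadraticChar F (h.eval t) : ℝ) +
        (if h.eval t = 0 then (1 : ℝ) else 0) := by
    intro t
    rw [← Int.cast_mul, ← map_mul]
    by_cases h0 : h.eval t = 0
    · rw [if_pos h0, h0, mul_zero, if_pos IsSquare.zero, quadraticChar_zero]
      norm_num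
    rw [if_neg h0, add_zero]
    have hne : (c : F) * h.eval t ≠ 0 := mul_ne_zero hc' h0
    by_cases hsq : IsSquare ((c : F) * h.eval t)
    · rw [if_pos hsq, (quadraticChar_one_iff_isSquare hne).2 hsq]
      norm_num
    · rw [if_neg hsq, quadraticChar_neg_one_iff_not_isSquare.2 hsq]
      norm_num
  have hW := HyperellipticWeil.Summary.weil_bound hq2 h hsep'.squarefree hdeg'
  rw [ZMod.card] at hW
  have hroots : ((univ.filter fun t : F => h.eval t = 0).card : ℝ) ≤ k := by
    refine Nat.cast_le.2 (le_trans (le_trans (card_le_card fun t ht => ?_)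
      (Multiset.toFinset_card_le h.roots)) ((card_roots' h).trans hk))
    rw [Multiset.mem_toFinset, mem_roots hsep'.ne_zero]
    exact (mem_filter.1 ht).2
  have hsum := sum_le_sum (s := (univ : Finset F)) fun t _ => hterm t
  rw [← mul_sum, sum_boole, sum_add_distrib, sum_add_distrib, sum_boole, ← mul_sum, sum_const,
    card_univ, ZMod.card, nsmul_one] at hsum
  have hχ : |(quadraticChar F (c : F) : ℝ)| = 1 := by
    rcases quadraticChar_dichotomy hc' with e | e <;> rw [e] <;> norm_num
  have hχ2 : (quadraticChar F (c : F) : ℝ) * ∑ t : F, (quadraticChar F (h.eval t) : ℝ) ≤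
      k * Real.sqrt q := by
    refine (le_abs_self _).trans ?_
    rw [abs_mul, hχ, one_mul]
    exact hW.trans (mul_le_mul_of_nonneg_right (Nat.cast_le.2 (by omega)) (Real.sqrt_nonneg _))
  have hq' : (16 : ℝ) * (k : ℝ) ^ 2 ≤ q := by exact_mod_cast hq.le
  have hs : 4 * (k : ℝ) ≤ Real.sqrt q := Real.le_sqrt_of_sq_le (by linarith)
  have hss : Real.sqrt q * Real.sqrt q = q := Real.mul_self_sqrt (Nat.cast_nonneg q)
  have hk1 : (1 : ℝ) ≤ k := Nat.one_le_cast.2 (by omega)
  nlinarith [mul_le_mul_of_nonneg_right hs (Real.sqrt_nonneg (q : ℝ))]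

/-- **Square values on a segment.** -/
theorem square_values_on_line {u v : ℤ[X]} {D : ℤ} (hbez : u * g + v * derivative g = C D)
    (h2 : 2 ≤ g.natDegree) {A Q : ℕ} {c a x b y : ℤ} (P : Finset ℕ)
    (hP : ∀ q ∈ P, q.Prime ∧ q ≤ Q ∧ 16 * g.natDegree ^ 2 < q ∧ ¬(q : ℤ) ∣ D ∧
      ¬(q : ℤ) ∣ g.leadingCoeff ∧ ¬(q : ℤ) ∣ c ∧ ¬(q : ℤ) ∣ a * y - b * x)
    (S : Finset ℕ) (hS : ∀ t ∈ S, t ∈ Ioc 0 A ∧
      IsSquare (c * Thue.form g (a * t + x) (b * t + y))) :
    (P.card : ℝ) * S.card ≤ 4 * ((A : ℝ) + Q * Q) := by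
  classical
  have h := ThinSets.card_mul_le_of_missing P (fun q hq => ⟨(hP q hq).1, (hP q hq).2.1⟩)
    (S.image fun (t : ℕ) (_ : Fin 1) => t) (L := A) (c := 1 / 4) ?_ ?_
  · rw [card_image_of_injective _ fun s t h => congrFun h 0, Nat.sub_self, pow_zero, mul_one,
      Nat.cast_one, one_mul] at h
    linarith
  · intro w hw
    obtain ⟨t, ht, rfl⟩ := mem_image.1 hw
    exact ThinSets.mem_natBox.2 fun _ => (hS t ht).1
  intro q hq
  obtain ⟨hqp, -, hq16, hqD, hql, hqc, hqd⟩ := hP q hq
  have := Fact.mk hqp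
  refine le_trans (Nat.cast_le.2 (card_le_card_of_injOn (fun w => ((w 0 : ℕ) : ZMod q))
    (fun w hw => ?_) fun w hw w' hw' he => ?_))
    ((square_classes_card (a := a) (x := x) (b := b) (y := y) hbez h2 hq16 hqD hql hqc
      hqd).trans_eq (by ring))
  · obtain ⟨w', hw', rfl⟩ := mem_image.1 hw
    obtain ⟨t, ht, rfl⟩ := mem_image.1 hw'
    simp only [mem_coe, mem_filter, mem_univ, true_and, ZMod.natCast_mod]
    obtain ⟨z, hz⟩ := (hS t ht).2
    refine ⟨(z : ZMod q), ?_⟩
    rw [← Int.cast_mul, ← hz]
    simp [linePoly, Thue.form, eval_finsetSum, mul_assoc]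
  · obtain ⟨v, -, rfl⟩ := mem_image.1 hw
    obtain ⟨v', -, rfl⟩ := mem_image.1 hw'
    funext i
    rw [Subsingleton.elim i 0]
    simpa using (ZMod.natCast_eq_natCast_iff' _ _ _).1 he

end FA.GreavesSix

end
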