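import Fermat.Agent.ErdosDivisor.Euler
import Mathlib.NumberTheory.Chebyshev

/-!
# The mean number of roots

For irreducible `g` the roots modulo `n ≤ x` number `O (x)` in all: `log n = ∑ Λ d`, `d ∣ n`, the
bound of Chebyshev and the Euler product with Mertens' theorem for the roots.
-/

set_option autoImplicit false

noncomputable section

open Polynomial Finset

open scoped ArithmeticFunction.vonMangoldt

namespace FA.GreavesSix

open FA.RichertValues
open FA.ErdosKac (primesUpTo mem_primesUpTo)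

variable {g : ℤ[X]}

theorem rootMod_eq_zero_of_dvd (g : ℤ[X]) {m n : ℕ} (hn : 0 < n) (h : m ∣ n)
    (h0 : rootMod g m = 0) : rootMod g n = 0 := by
  rw [rootMod, card_eq_zero, filter_eq_empty_iff] at h0 ⊢
  intro r _ hr
  have hm : 0 < m := Nat.pos_of_dvd_of_pos h hn
  refine h0 (mem_range.2 (Nat.mod_lt r hm)) ?_
  have h1 : (m : ℤ) ∣ g.eval (r : ℤ) := (Int.natCast_dvd_natCast.2 h).trans hr
  rw [dvd_eval_iff_zmod] at h1 ⊢
  rwa [Int.cast_natCast, ZMod.natCast_mod, ← Int.cast_natCast]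

/-- A prime power costs at most the uniform bound. -/
theorem rootMod_prime_pow_mul_le {R : ℕ} (hR : ∀ p k : ℕ, p.Prime → rootMod g (p ^ k) ≤ R)
    {q j n : ℕ} (hq : q.Prime) (hn : n ≠ 0) : rootMod g (q ^ j * n) ≤ R * rootMod g n := by
  obtain ⟨b, n₀, hd, rfl⟩ := Nat.exists_eq_pow_mul_and_not_dvd hn q hq.ne_one
  have hn0 : 0 < n₀ := Nat.pos_of_ne_zero (right_ne_zero_of_mul hn)
  have hc : ∀ k, (q ^ k).Coprime n₀ := fun k => (hq.coprime_iff_not_dvd.2 hd).pow_left k
  rw [← mul_assoc, ← pow_add, rootMod_mul g (hc _) (pow_pos hq.pos _) hn0,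
    rootMod_mul g (hc _) (pow_pos hq.pos _) hn0]
  rcases Nat.eq_zero_or_pos (rootMod g (q ^ b)) with h | h
  · rw [rootMod_eq_zero_of_dvd g (pow_pos hq.pos _) (pow_dvd_pow q (Nat.le_add_left b j)) h,
      zero_mul]
    exact Nat.zero_le _
  · exact Nat.mul_le_mul (hR q _ hq) (Nat.le_mul_of_pos_left _ h)

/-- The Euler factor. -/
theorem local_factor_le {R : ℕ} (hR : ∀ p k : ℕ, p.Prime → rootMod g (p ^ k) ≤ R) {p : ℕ}
    (hp : p.Prime) :
    Summable (fun j : ℕ => (rootMod g (p ^ j) : ℝ) / ((p ^ j : ℕ) : ℝ)) ∧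
      ∑' j : ℕ, (rootMod g (p ^ j) : ℝ) / ((p ^ j : ℕ) : ℝ) ≤
        Real.exp ((rootMod g p : ℝ) / p + 2 * R / (p : ℝ) ^ 2) := by
  obtain ⟨r, hr⟩ : ∃ r : ℝ, r = (p : ℝ)⁻¹ := ⟨_, rfl⟩
  have hp2 : (2 : ℝ) ≤ p := Nat.ofNat_le_cast.2 hp.two_le
  have hr0 : 0 ≤ r := hr ▸ by positivity
  have hr2 : r ≤ 1 / 2 := by rw [hr, one_div]; exact inv_anti₀ two_pos hp2
  obtain ⟨G, hG⟩ : ∃ G : ℕ → ℝ, G = fun j => (rootMod g (p ^ j) : ℝ) / ((p ^ j : ℕ) : ℝ) :=
    ⟨_, rfl⟩
  have hG0 : ∀ j, 0 ≤ G j := fun j => by rw [hG]; positivity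
  have hgeo : Summable fun j : ℕ => (R : ℝ) * r ^ j :=
    (summable_geometric_of_lt_one hr0 (by linarith)).mul_left _
  have hle : ∀ j, G j ≤ (R : ℝ) * r ^ j := fun j => by
    simp only [hG]
    rw [hr, inv_pow, ← div_eq_mul_inv, Nat.cast_pow]
    exact div_le_div_of_nonneg_right (Nat.cast_le.2 (hR p j hp)) (by positivity)
  have hsum : Summable G := Summable.of_nonneg_of_le hG0 hle hgeo
  have h2 : ∑' j : ℕ, G (j + 2) ≤ 2 * R * r ^ 2 := by
    calc ∑' j : ℕ, G (j + 2) ≤ ∑' j : ℕ, (R : ℝ) * r ^ 2 * r ^ j := by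
          refine Summable.tsum_le_tsum (fun j => (hle (j + 2)).trans_eq (by ring))
            ((summable_nat_add_iff 2).2 hsum)
            ((summable_geometric_of_lt_one hr0 (by linarith)).mul_left _)
      _ = (R : ℝ) * r ^ 2 * (1 - r)⁻¹ := by
          rw [tsum_mul_left, tsum_geometric_of_lt_one hr0 (by linarith)]
      _ ≤ (R : ℝ) * r ^ 2 * 2 := by
          refine mul_le_mul_of_nonneg_left ?_ (by positivity)
          rw [inv_le_comm₀ (by linarith) two_pos]
          linarith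
      _ = _ := by ring
  have h0 : G 0 = 1 := by rw [hG]; simp [rootMod_one]
  have h1 : G 1 = (rootMod g p : ℝ) / p := by rw [hG]; simp
  refine ⟨hG ▸ hsum, le_of_eq_of_le (by rw [hG]) (b := ∑' j, G j) (le_trans ?_
    (Real.add_one_le_exp _))⟩
  rw [← hsum.sum_add_tsum_nat_add 2, sum_range_succ, sum_range_one, h0, h1,
    show 2 * (R : ℝ) / (p : ℝ) ^ 2 = 2 * R * r ^ 2 by rw [hr, inv_pow]; ring]
  linarith

/-- The sum of `ρ n / n`. -/
theorem exists_harmonic_le (hirr : Irreducible g) (hd : 0 < g.natDegree) :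
    ∃ C : ℝ, 0 < C ∧ ∀ x : ℕ, 2 ≤ x →
      ∑ n ∈ Icc 1 x, (rootMod g n : ℝ) / n ≤ C * Real.log x := by
  obtain ⟨R, -, hR⟩ := ErdosDivisor.exists_rootMod_pow_le hirr hd
  obtain ⟨B, hB⟩ := ErdosDivisor.exists_abs_rootSum_le hirr hd
  refine ⟨Real.exp (B + 2 * R), Real.exp_pos _, fun x hx => ?_⟩
  obtain ⟨F, hF⟩ : ∃ F : ℕ → ℝ, F = fun a => (rootMod g a : ℝ) / a := ⟨_, rfl⟩
  have hF0 : ∀ a, 0 ≤ F a := fun a => by rw [hF]; positivity
  have hlocal : ∀ p : ℕ, p.Prime → Summable (fun j : ℕ => F (p ^ j)) ∧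
      ∑' j : ℕ, F (p ^ j) ≤ Real.exp ((rootMod g p : ℝ) / p + 2 * R / (p : ℝ) ^ 2) := by
    intro p hp
    rw [hF]
    exact local_factor_le hR hp
  obtain ⟨hsum, hh⟩ := EulerProduct.summable_and_hasSum_factoredNumbers_prod_filter_prime_tsum
    (f := F) (by simp [hF, rootMod_one])
    (fun {m n} h => by
      rcases Nat.eq_zero_or_pos m with rfl | hm
      · simp [hF]
      rcases Nat.eq_zero_or_pos n with rfl | hn
      · simp [hF]
      simp only [hF, rootMod_mul g h hm hn, Nat.cast_mul]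
      ring)
    (fun {p} hp => ((hlocal p hp).1).congr fun j => by rw [Real.norm_of_nonneg (hF0 _)])
    (primesUpTo x)
  rw [filter_true_of_mem fun p hp => (mem_primesUpTo.1 hp).1] at hh
  have hsub : ∀ a ∈ Icc 1 x, a ∈ Nat.factoredNumbers (primesUpTo x) := fun a ha => by
    rw [mem_Icc] at ha
    exact Nat.mem_factoredNumbers.2 ⟨by omega, fun p hp => mem_primesUpTo.2
      ⟨Nat.prime_of_mem_primeFactorsList hp, (Nat.le_of_mem_primeFactorsList hp).trans ha.2⟩⟩
  have h1 : ∑ a ∈ Icc 1 x, F a ≤ ∏ p ∈ primesUpTo x, ∑' j : ℕ, F (p ^ j) := by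
    refine le_of_eq_of_le ?_ (sum_le_hasSum ((Icc 1 x).subtype _) (fun a _ => hF0 a) hh)
    rw [← sum_subtype_of_mem (s := Icc 1 x) F hsub]
  rw [hF] at h1
  have h2 : ∏ p ∈ primesUpTo x, ∑' j : ℕ, (rootMod g (p ^ j) : ℝ) / ((p ^ j : ℕ) : ℝ) ≤
      ∏ p ∈ primesUpTo x, Real.exp ((rootMod g p : ℝ) / p + 2 * R / (p : ℝ) ^ 2) :=
    prod_le_prod (fun p _ => tsum_nonneg fun j => by positivity)
      fun p hp => (local_factor_le hR (mem_primesUpTo.1 hp).1).2
  refine h1.trans (h2.trans ?_)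
  rw [← Real.exp_sum, sum_add_distrib]
  have hm : (rootSumUpTo g x : ℝ) ≤ B + Real.log (Real.log x) := by
    have := (abs_le.1 (hB x)).2
    linarith
  have hsq : ∑ p ∈ primesUpTo x, 2 * (R : ℝ) / (p : ℝ) ^ 2 ≤ (2 * R : ℝ) := by
    have hsub : primesUpTo x ⊆ Ioc 1 (max x 1) := fun p hp => by
      obtain ⟨hp1, hp2⟩ := mem_primesUpTo.1 hp
      have := hp1.two_le
      rw [mem_Ioc]
      omega
    simp only [div_eq_mul_inv, ← mul_sum]
    refine mul_le_of_le_one_right (by positivity)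
      ((sum_le_sum_of_subset_of_nonneg hsub fun p _ _ => by positivity).trans ?_)
    refine (sum_Ioc_inv_sq_le_sub (α := ℝ) one_ne_zero (le_max_right x 1)).trans ?_
    rw [Nat.cast_one, inv_one]
    linarith [show (0 : ℝ) ≤ ((max x 1 : ℕ) : ℝ)⁻¹ by positivity]
  have hlog : 0 < Real.log x := Real.log_pos (Nat.one_lt_cast.2 hx)
  rw [← Real.exp_log hlog, ← Real.exp_add, Real.exp_le_exp]
  have e : ∑ p ∈ primesUpTo x, (rootMod g p : ℝ) / p = rootSumUpTo g x := rfl
  rw [e]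
  linarith

/-- **The mean number of roots is bounded.** -/
theorem root_mean_linear (hirr : Irreducible g) (hd : 0 < g.natDegree) :
    ∃ C : ℝ, 0 < C ∧ ∀ x : ℕ, (∑ n ∈ Icc 1 x, rootMod g n : ℕ) ≤ C * x := by
  obtain ⟨R, -, hR⟩ := ErdosDivisor.exists_rootMod_pow_le hirr hd
  obtain ⟨C, hC, hharm⟩ := exists_harmonic_le hirr hd
  obtain ⟨c, hc⟩ : ∃ c : ℝ, c = Real.log 4 + 4 := ⟨_, rfl⟩
  have hc0 : 0 < c := by rw [hc]; positivity
  refine ⟨2 * C + 2 * (R * c * C) + 1, by positivity, fun x => ?_⟩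
  rcases lt_or_ge x 2 with hx | hx
  · have hs : (∑ n ∈ Icc 1 x, rootMod g n) ≤ x := by
      interval_cases x
      · simp
      · simp [rootMod_one]
    calc ((∑ n ∈ Icc 1 x, rootMod g n : ℕ) : ℝ) ≤ (x : ℝ) := Nat.cast_le.2 hs
      _ ≤ _ := le_mul_of_one_le_left (Nat.cast_nonneg x)
          (by linarith [show (0 : ℝ) ≤ 2 * C + 2 * (R * c * C) by positivity])
  have hxR : (1 : ℝ) < x := Nat.one_lt_cast.2 hx
  have hL : 0 < Real.log x := Real.log_pos hxR
  have hH := hharm x hx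
  -- the weighted sum
  have hlogsum : ∑ n ∈ Icc 1 x, (rootMod g n : ℝ) * Real.log n ≤
      R * c * x * (C * Real.log x) := by
    calc ∑ n ∈ Icc 1 x, (rootMod g n : ℝ) * Real.log n
        = ∑ n ∈ Icc 1 x, ∑ d ∈ n.divisors, (rootMod g n : ℝ) * Λ d :=
          sum_congr rfl fun n _ => by rw [← mul_sum, ArithmeticFunction.vonMangoldt_sum]
      _ ≤ ∑ n ∈ Icc 1 x, ∑ d ∈ n.divisors, (R : ℝ) * rootMod g (n / d) * Λ d := by
          refine sum_le_sum fun n hn => sum_le_sum fun d hd' => ?_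
          by_cases h0 : Λ d = 0
          · rw [h0, mul_zero, mul_zero]
          refine mul_le_mul_of_nonneg_right ?_ ArithmeticFunction.vonMangoldt_nonneg
          obtain ⟨q, j, hq, -, rfl⟩ :=
            (isPrimePow_nat_iff d).1 (ArithmeticFunction.vonMangoldt_ne_zero_iff.1 h0)
          obtain ⟨hdn, hn0⟩ := Nat.mem_divisors.1 hd'
          obtain ⟨m, rfl⟩ := hdn
          rw [Nat.mul_div_cancel_left m (pow_pos hq.pos j)]
          exact_mod_cast rootMod_prime_pow_mul_le hR hq (right_ne_zero_of_mul hn0)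
      _ ≤ ∑ u ∈ (Icc 1 x).sigma fun m => Ioc 0 (x / m), (R : ℝ) * rootMod g u.1 * Λ u.2 := by
          rw [sum_sigma']
          refine le_of_eq_of_le ?_ (sum_le_sum_of_subset_of_nonneg
            (s := ((Icc 1 x).sigma fun n => n.divisors).image fun u => (⟨u.1 / u.2, u.2⟩ :
              (_ : ℕ) × ℕ)) ?_ fun u _ _ => mul_nonneg (by positivity)
                ArithmeticFunction.vonMangoldt_nonneg)
          · rw [sum_image]
            intro u hu v hv h
            simp only [coe_sigma, Set.mem_sigma_iff, mem_coe, Nat.mem_divisors] at hu hv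
            simp only [Sigma.mk.injEq, heq_eq_eq] at h
            obtain ⟨n, d⟩ := u
            obtain ⟨n', d'⟩ := v
            simp only at h hu hv
            obtain ⟨h1, rfl⟩ := h
            rw [← Nat.div_mul_cancel hu.2.1, ← Nat.div_mul_cancel hv.2.1, h1]
          · intro u hu
            obtain ⟨⟨n, d⟩, hv, rfl⟩ := mem_image.1 hu
            simp only [mem_sigma, mem_Icc, Nat.mem_divisors, mem_Ioc] at hv ⊢
            have hd0 : 0 < d := Nat.pos_of_dvd_of_pos hv.2.1 (by omega)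
            have h1 : 0 < n / d := Nat.div_pos (Nat.le_of_dvd (by omega) hv.2.1) hd0
            refine ⟨⟨h1, (Nat.div_le_self n d).trans hv.1.2⟩, hd0, ?_⟩
            rw [Nat.le_div_iff_mul_le h1, mul_comm, Nat.div_mul_cancel hv.2.1]
            exact hv.1.2
      _ ≤ ∑ m ∈ Icc 1 x, (R : ℝ) * c * x * ((rootMod g m : ℝ) / m) := by
          rw [sum_sigma]
          refine sum_le_sum fun m hm => ?_
          simp only
          rw [← mul_sum]
          have hψ : ∑ d ∈ Ioc 0 (x / m), Λ d ≤ c * ((x : ℝ) / m) := by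
            refine le_trans ?_ (hc ▸ Chebyshev.psi_le_const_mul_self (x := (x : ℝ) / m)
              (by positivity))
            rw [Chebyshev.psi, Nat.floor_div_natCast, Nat.floor_natCast]
          refine (mul_le_mul_of_nonneg_left hψ (by positivity)).trans_eq ?_
          ring
      _ ≤ _ := by
          rw [← mul_sum]
          exact mul_le_mul_of_nonneg_left hH (by positivity)
  -- small arguments
  set s := Real.sqrt (x : ℝ) with hs
  have hs0 : 0 < s := Real.sqrt_pos.2 (by linarith)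
  have hterm : ∀ n ∈ Icc 1 x, (rootMod g n : ℝ) ≤
      s * ((rootMod g n : ℝ) / n) + 2 / Real.log x * ((rootMod g n : ℝ) * Real.log n) := by
    intro n hn
    have hn1 : (1 : ℝ) ≤ n := Nat.one_le_cast.2 (mem_Icc.1 hn).1
    have hρ : (0 : ℝ) ≤ rootMod g n := Nat.cast_nonneg _
    have hln : 0 ≤ Real.log n := Real.log_nonneg hn1
    rcases le_or_gt (n : ℝ) s with h | h
    · refine le_add_of_le_of_nonneg ?_ (by positivity)
      calc (rootMod g n : ℝ) = n * ((rootMod g n : ℝ) / n) := by field_simp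
        _ ≤ _ := mul_le_mul_of_nonneg_right h (by positivity)
    · refine le_add_of_nonneg_of_le (by positivity) ?_
      have h1 : Real.log x / 2 ≤ Real.log n := by
        rw [← Real.log_sqrt (by linarith), ← hs]
        exact Real.log_le_log hs0 h.le
      rw [div_mul_eq_mul_div, le_div_iff₀ hL]
      nlinarith
  have hlogx : Real.log x ≤ 2 * s := by
    have h := Real.log_le_sub_one_of_pos hs0
    rw [hs, Real.log_sqrt (by linarith), ← hs] at h
    linarith
  have hsum := sum_le_sum hterm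
  rw [sum_add_distrib, ← mul_sum, ← mul_sum] at hsum
  push_cast
  have h1 : s * ∑ n ∈ Icc 1 x, (rootMod g n : ℝ) / n ≤ 2 * C * x := by
    calc s * ∑ n ∈ Icc 1 x, (rootMod g n : ℝ) / n ≤ s * (C * (2 * s)) :=
          mul_le_mul_of_nonneg_left (hH.trans (mul_le_mul_of_nonneg_left hlogx hC.le)) hs0.le
      _ = 2 * C * (s * s) := by ring
      _ = _ := by rw [hs, Real.mul_self_sqrt (by linarith)]
  have h2 : 2 / Real.log x * ∑ n ∈ Icc 1 x, (rootMod g n : ℝ) * Real.log n ≤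
      2 * (R * c * C) * x :=
    (mul_le_mul_of_nonneg_left hlogsum (by positivity)).trans_eq (by field_simp)
  linarith

/-- **The `m` with half of `P` among their divisors have few roots.** -/
theorem sum_rootMod_many_divisors_le {R : ℕ} (hR : ∀ p k : ℕ, p.Prime → rootMod g (p ^ k) ≤ R)
    {C : ℝ} (hC : 0 ≤ C) (hmean : ∀ x : ℕ, (∑ n ∈ Icc 1 x, rootMod g n : ℕ) ≤ C * x) {T : ℕ}
    (hT : 0 < T) (P : Finset ℕ) (hP : ∀ q ∈ P, q.Prime ∧ T ≤ q) (hne : 0 < P.card) (X : ℕ) :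
    ∑ m ∈ (Icc 1 X).filter (fun m => P.card < 2 * (P.filter (· ∣ m)).card), (rootMod g m : ℝ) ≤
      2 * R * C * X / T := by
  have hT0 : (0 : ℝ) < T := Nat.cast_pos.2 hT
  have hq : ∀ q ∈ P, ∑ m ∈ (Icc 1 X).filter (q ∣ ·), (rootMod g m : ℝ) ≤ R * C * X / T := by
    intro q hq
    obtain ⟨hqp, hqT⟩ := hP q hq
    have hsub : (Icc 1 X).filter (q ∣ ·) ⊆ (Icc 1 (X / q)).image (q * ·) := fun m hm => by
      obtain ⟨hm1, n, rfl⟩ := mem_filter.1 hm
      rw [mem_Icc] at hm1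
      refine mem_image.2 ⟨n, mem_Icc.2 ⟨?_, (Nat.le_div_iff_mul_le hqp.pos).2 ?_⟩, rfl⟩
      · exact Nat.pos_of_mul_pos_left (a := q) hm1.1
      · rw [mul_comm]; exact hm1.2
    refine (sum_le_sum_of_subset_of_nonneg hsub fun _ _ _ => Nat.cast_nonneg _).trans ?_
    rw [sum_image fun a _ b _ h => Nat.eq_of_mul_eq_mul_left hqp.pos h]
    refine (sum_le_sum (g := fun n => (R : ℝ) * rootMod g n) fun n hn => ?_).trans ?_
    · have hn1 := (mem_Icc.1 hn).1
      have h3 := rootMod_prime_pow_mul_le hR (j := 1) hqp (n := n) (by omega)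
      rw [pow_one] at h3
      exact_mod_cast h3
    · rw [← mul_sum, mul_assoc, mul_div_assoc, mul_div_assoc]
      refine mul_le_mul_of_nonneg_left ?_ (Nat.cast_nonneg _)
      have h3 := hmean (X / q)
      push_cast at h3
      refine h3.trans (mul_le_mul_of_nonneg_left (le_trans Nat.cast_div_le ?_) hC)
      exact div_le_div_of_nonneg_left (Nat.cast_nonneg _) hT0 (Nat.cast_le.2 hqT)
  have hP0 : (0 : ℝ) < P.card := by exact_mod_cast hne
  set bad := (Icc 1 X).filter fun m => P.card < 2 * (P.filter (· ∣ m)).card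
  refine le_of_mul_le_mul_left ?_ hP0
  calc (P.card : ℝ) * ∑ m ∈ bad, (rootMod g m : ℝ)
      ≤ ∑ m ∈ bad, 2 * ((rootMod g m : ℝ) * (P.filter (· ∣ m)).card) := by
        rw [mul_sum]
        refine sum_le_sum fun m hm => ?_
        have h3 : (P.card : ℝ) ≤ 2 * (P.filter (· ∣ m)).card := by
          exact_mod_cast (mem_filter.1 hm).2.le
        exact (mul_le_mul_of_nonneg_right h3 (Nat.cast_nonneg _)).trans_eq (by ring)
    _ ≤ ∑ m ∈ Icc 1 X, 2 * ((rootMod g m : ℝ) * (P.filter (· ∣ m)).card) :=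
        sum_le_sum_of_subset_of_nonneg (filter_subset _ _) fun _ _ _ => by positivity
    _ = 2 * ∑ q ∈ P, ∑ m ∈ (Icc 1 X).filter (q ∣ ·), (rootMod g m : ℝ) := by
        rw [← mul_sum]
        simp only [card_filter, Nat.cast_sum, mul_sum, Nat.cast_ite, Nat.cast_one,
          Nat.cast_zero, mul_ite, mul_one, mul_zero, sum_filter]
        rw [sum_comm]
    _ ≤ 2 * (P.card • (R * C * X / T)) :=
        mul_le_mul_of_nonneg_left (sum_le_card_nsmul _ _ _ hq) two_pos.le
    _ = _ := by rw [nsmul_eq_mul]; ring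

end FA.GreavesSix

end
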