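import Fermat.Agent.GreavesSix.Lattice
import Fermat.Agent.GreavesSix.LineSieve
import Fermat.Agent.GreavesSix.MeanRoots

/-!
# A prime square beyond `B²` in a factor of degree at most six

`p² m = g (x, y)` with `p > L B²` makes `m = O (B² / L²)`, and `c m g (x, y)` a square for a
divisor `c` of the leading coefficient and the part of `m` prime to it. In each of the `ρ m`
classes the segments of length `A = T⁴` of the lattice are sieved by the primes of `(T, T²]`;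
the `m` divisible by half of them are few.
-/

set_option autoImplicit false

noncomputable section

open Polynomial Finset Filter

namespace FA.GreavesSix

open FA.RichertValues (rootMod)
open FA.ThinSets (intBox)
open FA.GreavesForms (intRatio intRatio_mul form_zmod mem_box not_dvd_form form_natAbs_le)
open scoped Classical Topology

variable {g : ℤ[X]}

theorem eventually_five_mul_le_primeCounting :
    ∀ᶠ T : ℕ in atTop, 5 * T ≤ Nat.primeCounting (T ^ 2) := by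
  have h := tendsto_natCast_atTop_atTop.eventually
    (Real.isLittleO_log_id_atTop.bound (show (0 : ℝ) < 1 / 100 by norm_num))
  filter_upwards [h, eventually_ge_atTop 2] with T hT hT2
  have hT' : (2 : ℝ) ≤ T := by exact_mod_cast hT2
  have hlog : 0 < Real.log T := Real.log_pos (by linarith)
  rw [Real.norm_of_nonneg hlog.le, id, Real.norm_of_nonneg (by positivity)] at hT
  have hpi := Chebyshev.pi_ge (T ^ 2)
  push_cast at hpi
  rw [Real.log_pow, div_le_iff₀ (by positivity)] at hpi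
  push_cast at hpi
  have h1 : Real.log ((T : ℝ) ^ 2 + 1) ≤ Real.log 2 + 2 * Real.log T := by
    calc Real.log ((T : ℝ) ^ 2 + 1) ≤ Real.log (2 * (T : ℝ) ^ 2) :=
          Real.log_le_log (by positivity) (by nlinarith)
      _ = _ := by rw [Real.log_mul two_ne_zero (by positivity), Real.log_pow]; norm_num
  have hl2 := Real.log_two_gt_d9
  have hl2' := Real.log_two_lt_d9
  rw [← @Nat.cast_le ℝ]
  push_cast
  by_contra hc
  push Not at hc
  nlinarith [mul_lt_mul_of_pos_right hc (show (0 : ℝ) < 2 * Real.log T by linarith)]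

/-- The primes of `(T, T²]`. -/
theorem primes_between_card_le {T : ℕ} (h5 : 5 * T ≤ Nat.primeCounting (T ^ 2)) :
    4 * T ≤ ((Ioc T (T ^ 2)).filter Nat.Prime).card := by
  have hsub : (T ^ 2 + 1).primesBelow ⊆ (Ioc T (T ^ 2)).filter Nat.Prime ∪ Ioc 0 T := by
    intro q hq
    obtain ⟨hq1, hq2⟩ := Nat.mem_primesBelow.1 hq
    rcases le_or_gt q T with h | h
    · exact mem_union_right _ (mem_Ioc.2 ⟨hq2.pos, h⟩)
    · exact mem_union_left _ (mem_filter.2 ⟨mem_Ioc.2 ⟨h, by omega⟩, hq2⟩)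
  have h6 := (card_le_card hsub).trans (card_union_le _ _)
  rw [Nat.primesBelow_card_eq_primeCounting', ← Nat.primeCounting_eq_primeCounting'_succ,
    Nat.card_Ioc] at h6
  omega

/-- Few primes above `T` divide a small number. -/
theorem prime_divisors_card_le {T n k : ℕ} (hT : 1 < T) (s : Finset ℕ)
    (hs : ∀ q ∈ s, q.Prime ∧ T ≤ q ∧ q ∣ n) (hn : n ≠ 0) (hnk : n < T ^ (k + 1)) : s.card ≤ k := by
  have h1 : T ^ s.card ≤ n :=
    (Finset.pow_card_le_prod s id T fun q hq => (hs q hq).2.1).trans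
      (Nat.le_of_dvd (Nat.pos_of_ne_zero hn) (Finset.prod_primes_dvd n
        (fun q hq => (hs q hq).1.prime) fun q hq => (hs q hq).2.2))
  exact Nat.lt_succ_iff.1 ((Nat.pow_lt_pow_iff_right hT).1 (h1.trans_lt hnk))

/-- The points of the classes of `m`. -/
def classPoints (g : ℤ[X]) (c : ℤ) (m B : ℕ) : Finset (Fin 2 → ℤ) :=
  (intBox 2 B).filter fun v => IsCoprime (v 0) (v 1) ∧ IsCoprime (m : ℤ) (v 1) ∧
    (m : ℤ) ∣ Thue.form g (v 0) (v 1) ∧ IsSquare (c * m * Thue.form g (v 0) (v 1))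

theorem classPoints_card_le {c : ℤ} {m A B : ℕ} (hm : 0 < m) (hA : 0 < A)
    (h1 : A ^ 2 * m ≤ B ^ 2) (h2 : B ^ 2 ≤ 256 * (m * A ^ 2)) {Kb : ℝ} (hK : 0 ≤ Kb)
    (hline : ∀ a x b y j : ℤ, a * y - b * x = j * m → j ≠ 0 → |j| ≤ 32 * A →
      ((Ioc 0 A).filter fun t : ℕ =>
        IsSquare (c * m * Thue.form g (a * t + x) (b * t + y))).card ≤ Kb) :
    ((classPoints g c m B).card : ℝ) ≤ rootMod g m * (2 + 5120 * A * Kb) := by
  have : NeZero m := ⟨hm.ne'⟩
  rw [card_eq_sum_card_fiberwise (f := fun v => intRatio m (v 0) (v 1))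
    (t := (range m).filter fun r : ℕ => (m : ℤ) ∣ g.eval (r : ℤ)) fun v hv => mem_filter.2
      ⟨mem_range.2 (ZMod.val_lt _),
        (form_zmod g ((ZMod.coe_int_isUnit_iff_isCoprime _ m).2 (mem_filter.1 hv).2.2.1)).1
        (mem_filter.1 hv).2.2.2.1⟩, Nat.cast_sum,
    rootMod, ← nsmul_eq_mul, ← sum_const]
  refine sum_le_sum fun r _ => ?_
  have h := class_card_le hm hA h1 h2 (r : ℤ) (fun x y => IsSquare (c * m * Thue.form g x y)) hK
    fun a x b y j e e' e'' => by convert hline a x b y j e e' e'' using 4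
  refine le_trans (Nat.cast_le.2 (card_le_card fun v hv => ?_)) h
  obtain ⟨hvc, hr⟩ := mem_filter.1 hv
  obtain ⟨hv1, hc, hu, -, hsq⟩ := mem_filter.1 hvc
  simp only [mem_filter]
  refine ⟨hv1, hc, ?_, hsq⟩
  rw [← ZMod.intCast_zmod_eq_zero_iff_dvd]
  push_cast
  rw [← intRatio_mul (x := v 0) ((ZMod.coe_int_isUnit_iff_isCoprime _ m).2 hu), hr, sub_self]

/-- **One level.** -/
theorem exists_level_bound (hirr : Irreducible g) (h2 : 2 ≤ g.natDegree) :
    ∃ (K : ℝ) (T₁ : ℕ), 0 < K ∧ ∀ T : ℕ, T₁ ≤ T → ∀ (B : ℕ) (c : ℤ), c ∣ g.leadingCoeff →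
      ∑ m ∈ (Icc 1 (B ^ 2 / T ^ 8)).filter (fun m => B ^ 2 ≤ 256 * (m * T ^ 8)),
        ((classPoints g c m B).card : ℝ) ≤ K * (B : ℝ) ^ 2 / T := by
  have hd : 0 < g.natDegree := by omega
  have hg0 : g ≠ 0 := hirr.ne_zero
  obtain ⟨R, -, hR⟩ := ErdosDivisor.exists_rootMod_pow_le hirr hd
  obtain ⟨C, hC, hmean⟩ := root_mean_linear hirr hd
  obtain ⟨D, u, v, hD, hbez⟩ := SquarefreeValues.exists_bezout (f := g)
    (((IsPrimitive.Int.irreducible_iff_irreducible_map_cast (hirr.isPrimitive hd.ne')).1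
      hirr).separable)
  obtain ⟨T₀, hT₀⟩ := eventually_atTop.1 eventually_five_mul_le_primeCounting
  refine ⟨C * (40962 + 10240 * R),
    T₀ + 33 + D.natAbs + g.leadingCoeff.natAbs + 16 * g.natDegree ^ 2, by positivity,
    fun T hT B c hc => ?_⟩
  set P := (Ioc T (T ^ 2)).filter Nat.Prime
  have hPmem : ∀ q ∈ P, q.Prime ∧ T < q ∧ q ≤ T ^ 2 := fun q hq => by
    rw [mem_filter, mem_Ioc] at hq
    exact ⟨hq.2, hq.1⟩
  have hPcard : 4 * T ≤ P.card := primes_between_card_le (hT₀ T (by omega))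
  obtain ⟨X, hX⟩ : ∃ X, X = B ^ 2 / T ^ 8 := ⟨_, rfl⟩
  rw [← hX]
  set I := (Icc 1 X).filter fun m => B ^ 2 ≤ 256 * (m * T ^ 8)
  set bad := (Icc 1 X).filter fun m => P.card < 2 * (P.filter (· ∣ m)).card
  have hterm : ∀ m ∈ I, ((classPoints g c m B).card : ℝ) ≤
      rootMod g m * (2 + 40960 * (T : ℝ) ^ 7) +
        (if m ∈ bad then (rootMod g m : ℝ) * (5120 * (T : ℝ) ^ 8) else 0) := by
    intro m hm
    obtain ⟨hm1, hm2⟩ := mem_filter.1 hm
    have hmI := mem_Icc.1 hm1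
    have h1 : (T ^ 4) ^ 2 * m ≤ B ^ 2 := by
      rw [← pow_mul]
      exact le_trans (Nat.mul_le_mul_left _ (hX ▸ hmI.2)) (Nat.mul_div_le _ _)
    have h2' : B ^ 2 ≤ 256 * (m * (T ^ 4) ^ 2) := by rwa [← pow_mul]
    by_cases hbad : m ∈ bad
    · rw [if_pos hbad, ← mul_add]
      refine (classPoints_card_le hmI.1 (pow_pos (by omega) 4) h1 h2' (Kb := ((T ^ 4 : ℕ) : ℝ))
        (Nat.cast_nonneg _) fun a x b y j _ _ _ => Nat.cast_le.2 ((card_filter_le _ _).trans_eq
          (by simp))).trans (mul_le_mul_of_nonneg_left ?_ (Nat.cast_nonneg _))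
      push_cast
      nlinarith [pow_nonneg (Nat.cast_nonneg (α := ℝ) T) 7]
    rw [if_neg hbad, add_zero]
    have hgood : 2 * (P.filter (· ∣ m)).card ≤ P.card :=
      not_lt.1 fun h => hbad (mem_filter.2 ⟨hm1, h⟩)
    refine (classPoints_card_le hmI.1 (pow_pos (by omega) 4) h1 h2' (Kb := 8 * (T : ℝ) ^ 3)
      (by positivity) fun a x b y j hdet hj hjA => ?_).trans
      (mul_le_mul_of_nonneg_left (le_of_eq (by push_cast; ring)) (Nat.cast_nonneg _))
    set P' := P.filter fun q => ¬(q ∣ m ∨ (q : ℤ) ∣ j)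
    have hP' : T ≤ P'.card := by
      have hsub : P ⊆ P' ∪ (P.filter (· ∣ m) ∪ P.filter fun q : ℕ => (q : ℤ) ∣ j) := fun q hq => by
        simp only [P', mem_union, mem_filter]
        tauto
      have h6 := (card_le_card hsub).trans
        ((card_union_le _ _).trans (Nat.add_le_add_left (card_union_le _ _) _))
      have h7 : (P.filter fun q : ℕ => (q : ℤ) ∣ j).card ≤ 4 := by
        refine prime_divisors_card_le (T := T) (n := j.natAbs) (by omega) _ (fun q hq => ?_)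
          (Int.natAbs_ne_zero.2 hj) ?_
        · obtain ⟨hqP, hqj⟩ := mem_filter.1 hq
          exact ⟨(hPmem q hqP).1, (hPmem q hqP).2.1.le, Int.natCast_dvd.1 hqj⟩
        · rw [Int.abs_eq_natAbs] at hjA
          have h8 : j.natAbs ≤ 32 * T ^ 4 := by exact_mod_cast hjA
          rw [pow_succ]
          exact h8.trans_lt (by
            rw [mul_comm (T ^ 4)]
            exact Nat.mul_lt_mul_of_pos_right (by omega) (pow_pos (by omega) 4))
      omega
    have hlin := square_values_on_line hbez h2 (A := T ^ 4) (Q := T ^ 2) (c := c * m)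
      (a := a) (x := x) (b := b) (y := y) P' (fun q hq => ?_)
      ((Ioc 0 (T ^ 4)).filter fun t : ℕ =>
        IsSquare (c * m * Thue.form g (a * t + x) (b * t + y))) fun t ht => mem_filter.1 ht
    · set S := (Ioc 0 (T ^ 4)).filter fun t : ℕ =>
        IsSquare (c * m * Thue.form g (a * t + x) (b * t + y))
      push_cast at hlin
      have h9 : (T : ℝ) * S.card ≤ P'.card * S.card :=
        mul_le_mul_of_nonneg_right (Nat.cast_le.2 hP') (Nat.cast_nonneg _)
      refine le_of_mul_le_mul_left ?_ (show (0 : ℝ) < T by exact_mod_cast (by omega : 0 < T))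
      linarith [h9, hlin, show (T : ℝ) ^ 2 * (T : ℝ) ^ 2 = (T : ℝ) ^ 4 by ring,
        show (T : ℝ) * (8 * (T : ℝ) ^ 3) = 8 * (T : ℝ) ^ 4 by ring]
    · obtain ⟨hqP, hq'⟩ := mem_filter.1 hq
      obtain ⟨hqp, hqT, hqQ⟩ := hPmem q hqP
      rw [not_or] at hq'
      have hqI : Prime (q : ℤ) := Nat.prime_iff_prime_int.1 hqp
      have hsmall : ∀ z : ℤ, z ≠ 0 → z.natAbs < q → ¬(q : ℤ) ∣ z := fun z hz hzq h =>
        absurd (Nat.le_of_dvd (Int.natAbs_pos.2 hz) (Int.natCast_dvd.1 h)) (by omega)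
      have hql : ¬(q : ℤ) ∣ g.leadingCoeff :=
        hsmall _ (leadingCoeff_ne_zero.2 hg0) (by omega)
      have hqm : ¬(q : ℤ) ∣ (m : ℤ) := fun h => hq'.1 (Int.natCast_dvd_natCast.1 h)
      refine ⟨hqp, hqQ, by omega, hsmall D hD (by omega), hql, fun h => ?_, fun h => ?_⟩
      · rcases hqI.dvd_or_dvd h with h | h
        · exact hql (h.trans hc)
        · exact hqm h
      · rw [hdet] at h
        rcases hqI.dvd_or_dvd h with h | h
        · exact hq'.2 h
        · exact hqm h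
  have hmeanX := hmean X
  push_cast at hmeanX
  have hT0 : (0 : ℝ) < T := by exact_mod_cast (by omega : 0 < T)
  have hbadsum : ∑ m ∈ bad, (rootMod g m : ℝ) ≤ 2 * R * C * X / T :=
    sum_rootMod_many_divisors_le hR hC.le hmean (by omega) P
      (fun q hq => ⟨(hPmem q hq).1, (hPmem q hq).2.1.le⟩) (by omega) X
  refine (sum_le_sum hterm).trans ?_
  rw [sum_add_distrib, ← sum_filter, ← sum_mul, ← sum_mul]
  have hI : ∑ m ∈ I, (rootMod g m : ℝ) ≤ C * X :=
    (sum_le_sum_of_subset_of_nonneg (filter_subset _ _) fun _ _ _ => Nat.cast_nonneg _).trans hmeanX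
  have hIb : ∑ m ∈ I.filter (· ∈ bad), (rootMod g m : ℝ) ≤ 2 * R * C * X / T :=
    (sum_le_sum_of_subset_of_nonneg (fun m hm => (mem_filter.1 hm).2)
      fun _ _ _ => Nat.cast_nonneg _).trans hbadsum
  refine (add_le_add (mul_le_mul_of_nonneg_right hI (by positivity))
    (mul_le_mul_of_nonneg_right hIb (by positivity))).trans ?_
  have hX8 : (X : ℝ) * (T : ℝ) ^ 8 ≤ (B : ℝ) ^ 2 := by
    exact_mod_cast (hX ▸ Nat.div_mul_le_self (B ^ 2) (T ^ 8) : X * T ^ 8 ≤ B ^ 2)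
  have hT1 : (1 : ℝ) ≤ (T : ℝ) ^ 7 := one_le_pow₀ (by exact_mod_cast (by omega : 1 ≤ T))
  have e : 2 * R * C * (X : ℝ) / T * (5120 * (T : ℝ) ^ 8) =
      10240 * R * C * X * (T : ℝ) ^ 7 := by field_simp; ring
  rw [e, le_div_iff₀ hT0]
  calc (C * (X : ℝ) * (2 + 40960 * (T : ℝ) ^ 7) + 10240 * R * C * X * (T : ℝ) ^ 7) * T
      ≤ (C * X * (40962 * (T : ℝ) ^ 7) + 10240 * R * C * X * (T : ℝ) ^ 7) * T := by
        gcongr; linarith
    _ = C * (40962 + 10240 * R) * (X * (T : ℝ) ^ 8) := by ring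
    _ ≤ _ := mul_le_mul_of_nonneg_left hX8 (by positivity)

theorem form_ne_zero (hirr : Irreducible g) (h2 : 2 ≤ g.natDegree) {x y : ℤ} (hy : y ≠ 0) :
    Thue.form g x y ≠ 0 := fun h => by
  have hq := (IsPrimitive.Int.irreducible_iff_irreducible_map_cast
    (hirr.isPrimitive (by omega))).1 hirr
  have e := Thue.form_eq_mul (K := ℚ) g x y hy
  rw [h, Int.cast_zero] at e
  have h1 := degree_eq_one_of_irreducible_of_root hq
    ((mul_eq_zero.1 e.symm).resolve_left (pow_ne_zero _ (Int.cast_ne_zero.2 hy)))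
  have h3 := natDegree_eq_of_degree_eq_some (n := 1) h1
  rw [natDegree_map_eq_of_injective (RingHom.injective_int _)] at h3
  omega

/-- **Few points have a prime square beyond `L B²`.** -/
theorem exists_huge_points_le (hirr : Irreducible g) (h2 : 2 ≤ g.natDegree)
    (h6 : g.natDegree ≤ 6) {δ : ℝ} (hδ : 0 < δ) : ∃ L : ℕ, ∀ B : ℕ,
      (((intBox 2 B).filter fun v => IsCoprime (v 0) (v 1) ∧ v 1 ≠ 0 ∧
        ∃ p : ℕ, p.Prime ∧ L * B ^ 2 < p ∧ (p : ℤ) ^ 2 ∣ Thue.form g (v 0) (v 1)).card : ℝ) ≤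
        δ * (B : ℝ) ^ 2 := by
  obtain ⟨K, T₁, hK, hlevel⟩ := exists_level_bound hirr h2
  set l := g.leadingCoeff
  have hl : l ≠ 0 := leadingCoeff_ne_zero.2 hirr.ne_zero
  set C0 := (Finset.Icc (-|l|) |l|).filter (· ∣ l)
  obtain ⟨T₂, hT₂⟩ := exists_nat_ge (2 * K * (C0.card + 1) / δ)
  obtain ⟨T0, hT0⟩ : ∃ T0, T0 = max (max T₁ T₂) 1 := ⟨_, rfl⟩
  set H := ∑ i ∈ range (g.natDegree + 1), (g.coeff i).natAbs with hH
  refine ⟨(H + 1) * T0 ^ 4, fun B => ?_⟩
  set S := (intBox 2 B).filter fun v => IsCoprime (v 0) (v 1) ∧ v 1 ≠ 0 ∧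
    ∃ p : ℕ, p.Prime ∧ (H + 1) * T0 ^ 4 * B ^ 2 < p ∧ (p : ℤ) ^ 2 ∣ Thue.form g (v 0) (v 1)
  set lev := fun i : ℕ => (Icc 1 (B ^ 2 / (T0 * 2 ^ i) ^ 8)).filter
    fun m => B ^ 2 ≤ 256 * (m * (T0 * 2 ^ i) ^ 8)
  have hcover : S ⊆ (range (B + 1)).biUnion fun i => C0.biUnion fun c =>
      (lev i).biUnion fun m => classPoints g c m B := by
    intro v hv
    obtain ⟨hv1, hco, hy, p, hp, hLp, hpd⟩ := mem_filter.1 hv
    obtain ⟨hx', hy'⟩ := mem_box.1 hv1
    have hB : 0 < B := by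
      rcases Nat.eq_zero_or_pos B with rfl | h
      · simp at hy'; exact absurd hy' hy
      · exact h
    obtain ⟨F, hF⟩ : ∃ F, F = Thue.form g (v 0) (v 1) := ⟨_, rfl⟩
    have hF0 : F ≠ 0 := hF ▸ form_ne_zero hirr h2 hy
    rw [← hF, ← Nat.cast_pow, Int.natCast_dvd] at hpd
    obtain ⟨n, hn⟩ := hpd
    have hn0 : 0 < n := Nat.pos_of_ne_zero fun h =>
      Int.natAbs_ne_zero.2 hF0 (by rw [hn, h, mul_zero])
    have hnB : n * (T0 ^ 4) ^ 2 ≤ B ^ 2 := by
      have h3 : p ^ 2 * n ≤ H * B ^ 6 := by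
        rw [← hn, hF]
        exact (form_natAbs_le g hx' hy').trans
          (Nat.mul_le_mul_left _ (Nat.pow_le_pow_right hB h6))
      have h4 : n * (T0 ^ 4) ^ 2 * ((H + 1) * B ^ 4) ≤ B ^ 2 * ((H + 1) * B ^ 4) := by
        calc n * (T0 ^ 4) ^ 2 * ((H + 1) * B ^ 4)
            ≤ n * (T0 ^ 4) ^ 2 * ((H + 1) ^ 2 * B ^ 4) := by
              gcongr
              exact Nat.le_self_pow two_ne_zero _
          _ = ((H + 1) * T0 ^ 4 * B ^ 2) ^ 2 * n := by ring
          _ ≤ p ^ 2 * n := by gcongr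
          _ ≤ H * B ^ 6 := h3
          _ ≤ (H + 1) * B ^ 6 := by gcongr; exact Nat.le_succ H
          _ = _ := by ring
      exact Nat.le_of_mul_le_mul_right h4 (by positivity)
    obtain ⟨a, b, ha0, hb0, hab, hsqf⟩ := Nat.sq_mul_squarefree_of_pos hn0
    obtain ⟨t, ht⟩ : ∃ t, t = Nat.gcd a l.natAbs := ⟨_, rfl⟩
    obtain ⟨m, hm⟩ : t ∣ a := ht ▸ Nat.gcd_dvd_left _ _
    have hm0 : 0 < m := Nat.pos_of_ne_zero fun h => by subst h; simp [hm] at ha0
    have hmn : m ≤ n := by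
      refine (Nat.le_of_dvd ha0 ⟨t, by rw [hm]; ring⟩).trans ?_
      exact hab ▸ Nat.le_mul_of_pos_left a (by positivity)
    have hml : ∀ q : ℕ, q.Prime → q ∣ m → ¬(q : ℤ) ∣ l := fun q hq hqm hql => by
      have hqt : q ∣ t := ht ▸ Nat.dvd_gcd (hm ▸ hqm.mul_left t) (Int.natCast_dvd.1 hql)
      exact hq.not_isUnit (hsqf q (hm ▸ mul_dvd_mul hqt hqm))
    have hmF : (m : ℤ) ∣ F := Int.natCast_dvd.2 ⟨p ^ 2 * b ^ 2 * t, by rw [hn, ← hab, hm]; ring⟩
    obtain ⟨c, hc⟩ : ∃ c : ℤ, c = F.sign * t := ⟨_, rfl⟩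
    have hcl : c ∣ l := by
      rw [hc, ← Int.natAbs_dvd_natAbs, Int.natAbs_mul, Int.natAbs_sign_of_ne_zero hF0, one_mul]
      exact ht ▸ Nat.gcd_dvd_right _ _
    have hcC : c ∈ C0 := mem_filter.2 ⟨mem_Icc.2 (abs_le.1
      (Int.le_of_dvd (abs_pos.2 hl) ((abs_dvd _ _).2 ((dvd_abs _ _).2 hcl)))), hcl⟩
    have hunit : IsCoprime (m : ℤ) (v 1) := by
      rw [Int.isCoprime_iff_nat_coprime]
      refine Nat.coprime_of_dvd fun q hq hqm hqy => ?_
      have hqy' : (q : ℤ) ∣ v 1 := Int.natCast_dvd.2 hqy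
      have hqm' : q ∣ m := by simpa using hqm
      refine not_dvd_form hq (hml q hq hqm') (fun hqx => ?_) hqy'
        (hF ▸ (Int.natCast_dvd_natCast.2 hqm').trans hmF)
      exact (Nat.prime_iff_prime_int.1 hq).not_isUnit (hco.isUnit_of_dvd' hqx hqy')
    have hsq : IsSquare (c * m * F) := by
      refine ⟨((p * b * t * m : ℕ) : ℤ), ?_⟩
      have e1 : F.sign * F = (F.natAbs : ℤ) := by
        rw [Int.sign_mul_self_eq_abs, Int.abs_eq_natAbs]
      rw [hc, show F.sign * (t : ℤ) * m * F = (t : ℤ) * m * (F.sign * F) by ring, e1, hn, ← hab, hm]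
      push_cast
      ring
    have hbig : B ^ 2 < m * (T0 * 2 ^ (B + 1)) ^ 8 := by
      have h5 : B < T0 * 2 ^ (B + 1) :=
        ((Nat.lt_succ_self B).trans Nat.lt_two_pow_self).trans_le
          (Nat.le_mul_of_pos_left _ (by omega))
      calc B ^ 2 < (T0 * 2 ^ (B + 1)) ^ 2 := Nat.pow_lt_pow_left h5 two_ne_zero
        _ ≤ (T0 * 2 ^ (B + 1)) ^ 8 := Nat.pow_le_pow_right (by omega) (by omega)
        _ ≤ _ := Nat.le_mul_of_pos_left _ hm0
    have hex : ∃ i, B ^ 2 < m * (T0 * 2 ^ (i + 1)) ^ 8 := ⟨B, hbig⟩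
    refine mem_biUnion.2 ⟨Nat.find hex, mem_range.2 (Nat.lt_succ_of_le (Nat.find_min' hex hbig)),
      mem_biUnion.2 ⟨c, hcC, mem_biUnion.2 ⟨m, mem_filter.2 ⟨mem_Icc.2 ⟨hm0, ?_⟩, ?_⟩,
        mem_filter.2 ⟨hv1, hco, hunit, hF ▸ hmF, hF ▸ hsq⟩⟩⟩⟩
    · rw [Nat.le_div_iff_mul_le (pow_pos (Nat.mul_pos (by omega) (by positivity)) 8)]
      rcases Nat.eq_zero_or_pos (Nat.find hex) with h0 | h0
      · rw [h0, pow_zero, mul_one, show T0 ^ 8 = (T0 ^ 4) ^ 2 by ring]
        exact (Nat.mul_le_mul_right _ hmn).trans hnB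
      · obtain ⟨i, hi⟩ := Nat.exists_eq_succ_of_ne_zero h0.ne'
        have h5 := Nat.find_min hex (m := i) (by omega)
        rw [not_lt] at h5
        rwa [hi]
    · exact (Nat.find_spec hex).le.trans_eq (by rw [pow_succ]; ring)
  have hT0pos : (0 : ℝ) < T0 := by exact_mod_cast (by omega : 0 < T0)
  calc (S.card : ℝ)
      ≤ ∑ i ∈ range (B + 1), ∑ c ∈ C0, ∑ m ∈ lev i, ((classPoints g c m B).card : ℝ) := by
        exact_mod_cast (card_le_card hcover).trans (card_biUnion_le.trans (sum_le_sum fun i _ =>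
          card_biUnion_le.trans (sum_le_sum fun c _ => card_biUnion_le)))
    _ ≤ ∑ i ∈ range (B + 1), (C0.card : ℝ) * (K * (B : ℝ) ^ 2 / T0) * (1 / 2) ^ i := by
        refine sum_le_sum fun i _ => ?_
        refine (sum_le_card_nsmul _ _ (K * (B : ℝ) ^ 2 / ((T0 * 2 ^ i : ℕ) : ℝ))
          fun c hc => ?_).trans_eq ?_
        · exact hlevel _ (le_trans (by omega) (Nat.le_mul_of_pos_right T0 (by positivity))) B c
            (mem_filter.1 hc).2
        · rw [nsmul_eq_mul, div_pow, one_pow]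
          push_cast
          field_simp
    _ ≤ (C0.card : ℝ) * (K * (B : ℝ) ^ 2 / T0) * 2 := by
        rw [← mul_sum]
        exact mul_le_mul_of_nonneg_left (sum_geometric_two_le _) (by positivity)
    _ ≤ _ := by
        have h3 : (T₂ : ℝ) ≤ T0 := Nat.cast_le.2 (by omega)
        have h4 : 2 * K * (C0.card + 1) ≤ δ * T0 := by
          rw [div_le_iff₀ hδ] at hT₂
          nlinarith
        rw [mul_div_assoc', div_mul_eq_mul_div, div_le_iff₀ hT0pos]
        nlinarith [sq_nonneg (B : ℝ), mul_le_mul_of_nonneg_right h4 (sq_nonneg (B : ℝ))]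

end FA.GreavesSix

end
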